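/-
S37 (project E), leaf E0: the local Dedekind model of a finite separable extension of function
fields at a place `v` of the base, and the bridge between the Prelude `Place` API and the primes
of that model.
-/
import Mathlib
import Fermat.Prelude.Def_AlgebraicCurve_DivisorPushPull
import Fermat.Agent.S24.FFCore

set_option autoImplicit false

noncomputable section

namespace Fermat.Agent.S37.FF

open AlgebraicCurve IsDedekindDomain

variable {K F F' : Type*} [Field K] [Field F] [Field F'] [Algebra K F] [Algebra K F']
  [Algebra F F'] [IsScalarTower K F F']

/-- The valuation ring of a place, as a type. -/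
abbrev Ov (v : Place K F) : Type _ := ↥v.toValuationSubring

/-- `F'` as an algebra over the valuation ring of a place of `F`. -/
@[instance_reducible]
def algOvF' (v : Place K F) : Algebra (Ov v) F' :=
  ((algebraMap F F').comp (algebraMap (Ov v) F)).toAlgebra

attribute [local instance 10] algOvF'

instance isScalarTower_Ov (v : Place K F) : IsScalarTower (Ov v) F F' :=
  IsScalarTower.of_algebraMap_eq fun _ => rfl

theorem algebraMap_Ov_apply (v : Place K F) (a : Ov v) :
    algebraMap (Ov v) F' a = algebraMap F F' (a : F) := rfl

instance isScalarTower_K_Ov (v : Place K F) : IsScalarTower K (Ov v) F' :=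
  IsScalarTower.of_algebraMap_eq fun a => by
    rw [algebraMap_Ov_apply, Place.coe_algebraMap, ← IsScalarTower.algebraMap_apply]

instance isTorsionFree_Ov (v : Place K F) : Module.IsTorsionFree (Ov v) F' :=
  .trans_faithfulSMul (Ov v) F F'

/-- The local Dedekind model of `F'` over the place `v`. -/
abbrev Bv (v : Place K F) : Subalgebra (Ov v) F' := integralClosure (Ov v) F'

variable [FiniteDimensional F F'] [Algebra.IsSeparable F F']

instance (v : Place K F) : IsDedekindDomain (Bv (F' := F') v) :=
  integralClosure.isDedekindDomain (Ov v) F F'

instance (v : Place K F) : IsFractionRing (Bv (F' := F') v) F' :=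
  integralClosure.isFractionRing_of_finite_extension F F'

instance (v : Place K F) : Module.Finite (Ov v) (Bv (F' := F') v) :=
  IsIntegralClosure.finite (Ov v) F F' _

example (v : Place K F) : Algebra K (Bv (F' := F') v) := inferInstance
example (v : Place K F) : IsScalarTower K (Bv (F' := F') v) F' := inferInstance
example (v : Place K F) : Module.IsTorsionFree (Ov v) (Bv (F' := F') v) := inferInstance
example (v : Place K F) : FaithfulSMul (Ov v) (Bv (F' := F') v) := inferInstance

open Fermat.Agent.S24

omit [FiniteDimensional F F'] [Algebra.IsSeparable F F'] in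
/-- Elements of `F'` integral over `O_v` lie in the valuation ring of every place over `v`. -/
theorem mem_of_isIntegral [Algebra.IsIntegral F F'] (w : Place K F') {x : F'}
    (hx : IsIntegral (Ov (w.restrict F)) x) : x ∈ w.toValuationSubring := by
  obtain ⟨p, hmonic, hroot⟩ := hx
  have hint : IsIntegral w.toValuationSubring x := by
    refine ⟨p.map (Place.restrictInclusion F w), hmonic.map _, ?_⟩
    rw [Polynomial.eval₂_map]
    have : (algebraMap w.toValuationSubring F').comp (Place.restrictInclusion F w)
        = algebraMap (Ov (w.restrict F)) F' := by
      ext a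
      rfl
    rw [this]
    exact hroot
  obtain ⟨y, hy⟩ := IsIntegrallyClosed.isIntegral_iff.mp hint
  exact hy ▸ y.2

/-- Elements of the local model lie in the valuation ring of every place over `v`. -/
theorem algebraMap_mem_of_restrict_eq (v : Place K F) (w : Place K F') (hw : w.restrict F = v)
    (b : Bv (F' := F') v) : algebraMap (Bv (F' := F') v) F' b ∈ w.toValuationSubring := by
  subst hw
  exact mem_of_isIntegral w b.2

/-- The place of a prime of the local model lies over `v`. -/
theorem restrict_placeOfPrime (v : Place K F) (Q : HeightOneSpectrum (Bv (F' := F') v)) :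
    (placeOfPrime (K := K) (F := F') Q).restrict F = v := by
  symm
  apply Place.ext
  rw [Place.restrict_toValuationSubring]
  refine ValuationSubring.eq_of_le_of_ne_top _ ?_ ((placeOfPrime (K := K) (F := F') Q).restrict F).ne_top'
  intro a ha
  rw [← Place.restrict_toValuationSubring, Place.restrict_toValuationSubring,
    ValuationSubring.mem_comap]
  have hint : IsIntegral (Ov v) (algebraMap (Ov v) F' ⟨a, ha⟩) := isIntegral_algebraMap
  exact algebraMap_mem_placeOfPrime (K := K) Q ⟨_, hint⟩

/-- **Bridge**: the places of `F'` over `v` are the places of the primes of the local model. -/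
def fiberEquiv (v : Place K F) :
    {w : Place K F' // w.restrict F = v} ≃ HeightOneSpectrum (Bv (F' := F') v) where
  toFun w := primeOfPlace w.1 (algebraMap_mem_of_restrict_eq v w.1 w.2)
  invFun Q := ⟨placeOfPrime (K := K) (F := F') Q, restrict_placeOfPrime v Q⟩
  left_inv w := Subtype.ext (placeOfPrime_primeOfPlace w.1 _)
  right_inv Q := primeOfPlace_placeOfPrime Q

@[simp]
theorem coe_fiberEquiv_symm (v : Place K F) (Q : HeightOneSpectrum (Bv (F' := F') v)) :
    (((fiberEquiv v).symm Q : {w : Place K F' // w.restrict F = v}) : Place K F')
      = placeOfPrime (K := K) (F := F') Q := rfl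

end Fermat.Agent.S37.FF
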