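/-
S37 (project E), leaf E1a: the fundamental identity `∑ e(w|v) deg w = [F' : F] deg v` for a finite
separable extension of function fields in the Prelude `Place` API, all places of degree one
(algebraically closed constant field).
-/
import Mathlib
import Fermat.Prelude.Def_AlgebraicCurve_Correspondence
import Fermat.Agent.S37.FF.LocalBridge

set_option autoImplicit false
set_option linter.unusedSectionVars false

noncomputable section

namespace Fermat.Agent.S37.FF

open AlgebraicCurve IsDedekindDomain Fermat.Agent.S24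

attribute [local instance 10] algOvF'

variable {K F F' : Type*} [Field K] [Field F] [Field F'] [Algebra K F] [Algebra K F']
  [Algebra F F'] [IsScalarTower K F F'] [FiniteDimensional F F'] [Algebra.IsSeparable F F']

/-- The Prelude ramification index of the place of a prime `Q` of the local model is the
multiplicity of `Q` in `m_v B_v`. -/
theorem ramificationIndex_placeOfPrime (v : Place K F) (Q : HeightOneSpectrum (Bv (F' := F') v)) :
    ((placeOfPrime (K := K) (F := F') Q).ramificationIndex F : ℤ)
      = (multiplicity Q.asIdeal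
          ((IsLocalRing.maximalIdeal (Ov v)).map (algebraMap (Ov v) (Bv (F' := F') v))) : ℤ) := by
  obtain ⟨π, hπ⟩ := IsDiscreteValuationRing.exists_irreducible (Ov v)
  have hπ0 : π ≠ 0 := hπ.ne_zero
  have hne : algebraMap (Ov v) (Bv (F' := F') v) π ≠ 0 :=
    (map_ne_zero_iff _ (FaithfulSMul.algebraMap_injective (Ov v) (Bv (F' := F') v))).mpr hπ0
  have h1 := ord_placeOfPrime_algebraMap K (Ov v) (F := F') Q π hne
  have h2 := (placeOfPrime (K := K) (F := F') Q).ord_restrict (F := F) (π : F)
  rw [restrict_placeOfPrime v Q, v.ord_coe_irreducible hπ, mul_one] at h2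
  have h3 : algebraMap (Ov v) F' π = algebraMap F F' (π : F) := rfl
  rw [h3, h2] at h1
  rw [h1, hπ.maximalIdeal_eq, Ideal.map_span, Set.image_singleton]

theorem maximalIdeal_Ov_ne_bot (v : Place K F) : IsLocalRing.maximalIdeal (Ov v) ≠ ⊥ :=
  IsDiscreteValuationRing.not_a_field (Ov v)

theorem finrank_Bv (v : Place K F) :
    Module.finrank (Ov v) (Bv (F' := F') v) = Module.finrank F F' :=
  (IsFractionRing.finrank_eq (Ov v) F (Bv (F' := F') v) F').symm

/-- every prime of the local model lies over the maximal ideal of `O_v`. -/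
theorem liesOver_maximalIdeal (v : Place K F) (Q : HeightOneSpectrum (Bv (F' := F') v)) :
    Q.asIdeal.LiesOver (IsLocalRing.maximalIdeal (Ov v)) := by
  constructor
  have hne : Q.asIdeal.under (Ov v) ≠ ⊥ := by
    intro h
    exact Q.ne_bot (Ideal.eq_bot_of_comap_eq_bot h)
  have hprime : (Q.asIdeal.under (Ov v)).IsPrime := Ideal.IsPrime.under _ _
  have hmax : (Q.asIdeal.under (Ov v)).IsMaximal := hprime.isMaximal hne
  exact (IsLocalRing.eq_maximalIdeal hmax).symm

/-- In the local model, a degree-one place has residue field the constants: every element of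
`B_v` is congruent to a constant modulo `Q`. -/
theorem exists_const_sub_mem (v : Place K F) (Q : HeightOneSpectrum (Bv (F' := F') v))
    (hdeg : (placeOfPrime (K := K) (F := F') Q).deg = 1) (b : Bv (F' := F') v) :
    ∃ c : K, b - algebraMap K (Bv (F' := F') v) c ∈ Q.asIdeal := by
  set w := placeOfPrime (K := K) (F := F') Q with hw
  have hB : ∀ b : Bv (F' := F') v, algebraMap (Bv (F' := F') v) F' b ∈ w.toValuationSubring :=
    algebraMap_mem_placeOfPrime Q
  have h1 := (finrank_eq_one_iff_of_nonzero' (1 : w.ResidueField) one_ne_zero).mp hdeg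
  obtain ⟨c, hc⟩ := h1 (IsLocalRing.residue _ (toPlaceRing w hB b))
  refine ⟨c, ?_⟩
  have hQ : primeOfPlace w hB = Q := primeOfPlace_placeOfPrime Q
  rw [← hQ]
  show toPlaceRing w hB (b - algebraMap K (Bv (F' := F') v) c) ∈ IsLocalRing.maximalIdeal _
  rw [← IsLocalRing.residue_eq_zero_iff, map_sub, map_sub, sub_eq_zero, ← hc,
    Algebra.smul_def, mul_one]
  rw [IsScalarTower.algebraMap_apply K w.toValuationSubring w.ResidueField]
  congr 1

theorem inertiaDeg_eq_one_of_deg (v : Place K F) (Q : HeightOneSpectrum (Bv (F' := F') v))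
    (hdeg : (placeOfPrime (K := K) (F := F') Q).deg = 1) :
    Q.asIdeal.inertiaDeg (Ov v) = 1 := by
  have hlo := liesOver_maximalIdeal v Q
  have hQm : Q.asIdeal.IsMaximal := Q.isMaximal
  rw [Ideal.inertiaDeg_eq_of_isMaximal (IsLocalRing.maximalIdeal (Ov v)) Q.asIdeal]
  let _ : Field (Ov v ⧸ IsLocalRing.maximalIdeal (Ov v)) := Ideal.Quotient.field _
  let _ : Field (Bv (F' := F') v ⧸ Q.asIdeal) := Ideal.Quotient.field _
  rw [finrank_eq_one_iff_of_nonzero' (1 : Bv (F' := F') v ⧸ Q.asIdeal) one_ne_zero]
  intro x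
  obtain ⟨b, rfl⟩ := Ideal.Quotient.mk_surjective x
  obtain ⟨c, hc⟩ := exists_const_sub_mem v Q hdeg b
  refine ⟨Ideal.Quotient.mk _ (algebraMap K (Ov v) c), ?_⟩
  rw [Algebra.smul_def, mul_one]
  rw [← Ideal.Quotient.algebraMap_eq, ← IsScalarTower.algebraMap_apply (Ov v) (Ov v ⧸ _) (Bv (F' := F') v ⧸ Q.asIdeal)]
  rw [IsScalarTower.algebraMap_apply (Ov v) (Bv (F' := F') v) (Bv (F' := F') v ⧸ Q.asIdeal),
    Ideal.Quotient.algebraMap_eq, ← IsScalarTower.algebraMap_apply K (Ov v) (Bv (F' := F') v)]
  symm
  rw [← sub_eq_zero, ← map_sub, Ideal.Quotient.eq_zero_iff_mem]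
  exact hc


/-- The prime of the local model attached to a prime over `m_v`. -/
def primeOfOver (v : Place K F)
    (q : (IsLocalRing.maximalIdeal (Ov v)).primesOver (Bv (F' := F') v)) :
    HeightOneSpectrum (Bv (F' := F') v) :=
  ⟨q.1, q.2.1, Ideal.ne_bot_of_mem_primesOver (maximalIdeal_Ov_ne_bot v) q.2⟩

theorem sum_ramificationIndex_fiber [HasPrincipalDivisors K F']
    (hF' : ∀ w : Place K F', w.deg = 1) (v : Place K F) :
    ∑ w ∈ v.fiber F', w.ramificationIndex F = Module.finrank F F' := by
  classical
  set p := IsLocalRing.maximalIdeal (Ov v) with hp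
  have hp0 : p ≠ ⊥ := maximalIdeal_Ov_ne_bot v
  have hmap0 : p.map (algebraMap (Ov v) (Bv (F' := F') v)) ≠ ⊥ := Ideal.map_ne_bot_of_ne_bot hp0
  have hfin : (p.primesOver (Bv (F' := F') v)).Finite := IsDedekindDomain.primesOver_finite p _
  have : Fintype (p.primesOver (Bv (F' := F') v)) := hfin.fintype
  rw [← finrank_Bv v, ← Ideal.sum_ramification_inertia_eq_finrank p (Bv (F' := F') v)]
  symm
  refine Finset.sum_bij (fun q _ => placeOfPrime (K := K) (F := F') (primeOfOver v q)) ?_ ?_ ?_ ?_
  · intro q _
    exact Place.mem_fiber.mpr (restrict_placeOfPrime v _)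
  · intro q₁ _ q₂ _ h
    have h1 := primeOfPlace_placeOfPrime (K := K) (F := F') (primeOfOver v q₁)
    have h2 := primeOfPlace_placeOfPrime (K := K) (F := F') (primeOfOver v q₂)
    have : primeOfOver v q₁ = primeOfOver v q₂ := by
      rw [← h1, ← h2]
      congr 1
    exact Subtype.ext (congrArg HeightOneSpectrum.asIdeal this)
  · intro w hw
    have hwv : w.restrict F = v := Place.mem_fiber.mp hw
    set Q := fiberEquiv v ⟨w, hwv⟩ with hQ
    have hlo := liesOver_maximalIdeal v Q
    refine ⟨⟨Q.asIdeal, Q.isPrime, hlo⟩, Finset.mem_univ _, ?_⟩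
    have : primeOfOver v ⟨Q.asIdeal, Q.isPrime, hlo⟩ = Q := rfl
    rw [this]
    have h := (fiberEquiv v).symm_apply_apply ⟨w, hwv⟩
    exact congrArg Subtype.val h
  · intro q _
    have hqp : q.1.IsPrime := q.2.1
    have hql : q.1.LiesOver p := q.2.2
    have hdeg := hF' (placeOfPrime (K := K) (F := F') (primeOfOver v q))
    have h1 : q.1.inertiaDeg (Ov v) = 1 := inertiaDeg_eq_one_of_deg v (primeOfOver v q) hdeg
    rw [h1, mul_one, Ideal.IsDedekindDomain.ramificationIdx_eq_multiplicity p q.1 hmap0]
    have h2 := ramificationIndex_placeOfPrime v (primeOfOver v q)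
    exact_mod_cast h2.symm

/-- **Fundamental identity** `∑_{w | v} e(w|v) deg w = [F' : F] deg v` for a finite separable
extension of function fields all of whose places have degree one. -/
theorem fundamentalIdentity [HasPrincipalDivisors K F'] (hF : ∀ v : Place K F, v.deg = 1)
    (hF' : ∀ w : Place K F', w.deg = 1) : FundamentalIdentity K F F' where
  sum_ramificationIndex_mul_deg v := by
    simp only [hF', hF v, Nat.cast_one, mul_one]
    exact_mod_cast sum_ramificationIndex_fiber hF' v

end Fermat.Agent.S37.FF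

namespace Fermat.Agent.S37.FF

open AlgebraicCurve

variable {K F F' : Type*} [Field K] [Field F] [Field F'] [Algebra K F] [Algebra K F']

/-- The fundamental identity along an algebra embedding. -/
theorem fundamentalIdentityAlong [HasPrincipalDivisors K F'] (φ : F →ₐ[K] F')
    (hφ : φ.toRingHom.IsIntegral) (hfin : FiniteAlong K φ)
    (hsep : letI := algebraAlong φ; Algebra.IsSeparable F F')
    (hF : ∀ v : Place K F, v.deg = 1) (hF' : ∀ w : Place K F', w.deg = 1) :
    FundamentalIdentityAlong K φ hφ := by
  let _ := algebraAlong φ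
  have := isScalarTower_along φ
  have : FiniteDimensional F F' := hfin
  have : Algebra.IsSeparable F F' := hsep
  exact fundamentalIdentity hF hF'

end Fermat.Agent.S37.FF
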