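/-
S37 (project E), leaf E0c: the norm formula `ord_v (N_{F'/F} f) = ∑_{w ∣ v} f(w ∣ v) · ord_w f`
for a finite separable extension `F'/F` of function fields (characteristic zero), i.e. the Prelude
predicate `Divisor.PushforwardNormFormula K F F'`, on top of the local Dedekind model of
`FF/LocalBridge.lean` and Mathlib's relative ideal norm.
-/
import Mathlib
import Fermat.Agent.S37.FF.LocalBridge
import Fermat.Prelude.Def_AlgebraicCurve_Correspondence

set_option autoImplicit false

noncomputable section

namespace Fermat.Agent.S37.FF.NormFormula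

open AlgebraicCurve IsDedekindDomain Ideal Fermat.Agent.S37.FF Fermat.Agent.S24

/-! ### The Dedekind side (Mathlib only) -/

section Dedekind

variable {A B : Type*} [CommRing A] [IsDedekindDomain A] [CommRing B] [IsDedekindDomain B]
  [Algebra A B] [Module.Finite A B]

omit [IsDedekindDomain A] [IsDedekindDomain B] in
/-- If every height one prime of `B` lies over the same ideal of `A`, there are finitely many. -/
theorem finite_heightOneSpectrum_of_liesOver (P : Ideal A)
    (hP : ∀ Q : HeightOneSpectrum B, Q.asIdeal.LiesOver P) : Finite (HeightOneSpectrum B) := by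
  have hfin : (P.primesOver B).Finite := Algebra.QuasiFinite.finite_primesOver P
  have := hfin.to_subtype
  exact Finite.of_injective
    (fun Q : HeightOneSpectrum B => (⟨Q.asIdeal, Q.isPrime, hP Q⟩ : P.primesOver B))
    (fun Q Q' h => HeightOneSpectrum.ext (congrArg Subtype.val h))

variable [Module.IsTorsionFree A B] [PerfectField (FractionRing A)]
  (P : HeightOneSpectrum A) [Fintype (HeightOneSpectrum B)]
  (hP : ∀ Q : HeightOneSpectrum B, Q.asIdeal.LiesOver P.asIdeal)

include hP in
/-- The relative norm of a nonzero ideal, when all primes of `B` lie over `P`. -/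
theorem relNorm_eq_pow_sum (I : Ideal B) (hI : I ≠ ⊥) :
    Ideal.relNorm A I = P.asIdeal ^ (∑ Q : HeightOneSpectrum B,
      Q.asIdeal.inertiaDeg A * (Associates.mk Q.asIdeal).count (Associates.mk I).factors) := by
  have h1 := Ideal.finprod_heightOneSpectrum_factorization (I := I) hI
  rw [finprod_eq_prod_of_fintype] at h1
  conv_lhs => rw [← h1]
  rw [map_prod, ← Finset.prod_pow_eq_pow_sum]
  refine Finset.prod_congr rfl fun Q _ => ?_
  have := hP Q
  have hPm : P.asIdeal.IsMaximal := P.isMaximal
  have hQm : Q.asIdeal.IsMaximal := Q.isMaximal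
  rw [HeightOneSpectrum.maxPowDividing, map_pow,
    Ideal.relNorm_eq_pow_of_isMaximal Q.asIdeal P.asIdeal, ← pow_mul]

include hP in
theorem count_intNorm (b : B) (hb : b ≠ 0) :
    (Associates.mk P.asIdeal).count (Associates.mk (Ideal.span {Algebra.intNorm A B b})).factors
      = ∑ Q : HeightOneSpectrum B, Q.asIdeal.inertiaDeg A *
          (Associates.mk Q.asIdeal).count (Associates.mk (Ideal.span {b})).factors := by
  have hI : Ideal.span {b} ≠ ⊥ := by
    rwa [Ne, Ideal.span_singleton_eq_bot]
  rw [← Ideal.relNorm_singleton, relNorm_eq_pow_sum P hP _ hI, Associates.mk_pow,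
    Associates.count_pow (Associates.mk_ne_zero.mpr P.ne_bot) P.associates_irreducible,
    Associates.count_self P.associates_irreducible, mul_one]

include hP in
theorem log_intValuation_intNorm (b : B) (hb : b ≠ 0) :
    WithZero.log (P.intValuation (Algebra.intNorm A B b))
      = ∑ Q : HeightOneSpectrum B, (Q.asIdeal.inertiaDeg A : ℤ) *
          WithZero.log (Q.intValuation b) := by
  have hn : Algebra.intNorm A B b ≠ 0 := Algebra.intNorm_ne_zero.mpr hb
  rw [P.intValuation_if_neg hn, WithZero.log_exp, count_intNorm P hP b hb]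
  push_cast
  rw [← Finset.sum_neg_distrib]
  refine Finset.sum_congr rfl fun Q _ => ?_
  rw [Q.intValuation_if_neg hb, WithZero.log_exp]
  ring

variable {K L : Type*} [Field K] [Field L] [Algebra A K] [IsFractionRing A K] [Algebra K L]
  [Algebra A L] [IsScalarTower A K L] [Algebra B L] [IsScalarTower A B L]
  [IsIntegralClosure B A L] [FiniteDimensional K L] [IsFractionRing B L]

include hP in
theorem log_valuation_norm_algebraMap (b : B) (hb : b ≠ 0) :
    WithZero.log (P.valuation K (Algebra.norm K (algebraMap B L b)))
      = ∑ Q : HeightOneSpectrum B, (Q.asIdeal.inertiaDeg A : ℤ) *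
          WithZero.log (Q.valuation L (algebraMap B L b)) := by
  rw [← Algebra.algebraMap_intNorm (A := A) (K := K) (L := L) (B := B) b,
    HeightOneSpectrum.valuation_of_algebraMap, log_intValuation_intNorm P hP b hb]
  refine Finset.sum_congr rfl fun Q _ => ?_
  rw [HeightOneSpectrum.valuation_of_algebraMap]

include hP in
/-- **Norm formula, Dedekind form**: the `P`-adic valuation of the norm of `x` is the
inertia-weighted sum of the `Q`-adic valuations of `x`. -/
theorem log_valuation_norm (x : L) (hx : x ≠ 0) :
    WithZero.log (P.valuation K (Algebra.norm K x))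
      = ∑ Q : HeightOneSpectrum B, (Q.asIdeal.inertiaDeg A : ℤ) *
          WithZero.log (Q.valuation L x) := by
  obtain ⟨b, s, hs, rfl⟩ := IsFractionRing.div_surjective (A := B) x
  have hs0 : s ≠ 0 := nonZeroDivisors.ne_zero hs
  have hb0 : b ≠ 0 := by
    rintro rfl
    simp at hx
  have hbL : algebraMap B L b ≠ 0 :=
    (map_ne_zero_iff _ (IsFractionRing.injective B L)).mpr hb0
  have hsL : algebraMap B L s ≠ 0 :=
    (map_ne_zero_iff _ (IsFractionRing.injective B L)).mpr hs0
  have hxs : algebraMap B L b / algebraMap B L s * algebraMap B L s = algebraMap B L b :=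
    div_mul_cancel₀ _ hsL
  have hnx : Algebra.norm K (algebraMap B L b / algebraMap B L s) ≠ 0 :=
    Algebra.norm_ne_zero_iff.mpr hx
  have hns : Algebra.norm K (algebraMap B L s) ≠ 0 := Algebra.norm_ne_zero_iff.mpr hsL
  have h1 : WithZero.log (P.valuation K (Algebra.norm K (algebraMap B L b / algebraMap B L s)))
      + WithZero.log (P.valuation K (Algebra.norm K (algebraMap B L s)))
      = WithZero.log (P.valuation K (Algebra.norm K (algebraMap B L b))) := by
    rw [← WithZero.log_mul ((Valuation.ne_zero_iff _).mpr hnx) ((Valuation.ne_zero_iff _).mpr hns),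
      ← map_mul, ← map_mul, hxs]
  have h2 : ∀ Q : HeightOneSpectrum B,
      WithZero.log (Q.valuation L (algebraMap B L b / algebraMap B L s))
      = WithZero.log (Q.valuation L (algebraMap B L b))
        - WithZero.log (Q.valuation L (algebraMap B L s)) := by
    intro Q
    rw [map_div₀, WithZero.log_div ((Valuation.ne_zero_iff _).mpr hbL)
      ((Valuation.ne_zero_iff _).mpr hsL)]
  rw [log_valuation_norm_algebraMap P hP b hb0, log_valuation_norm_algebraMap P hP s hs0] at h1
  simp_rw [h2, mul_sub, Finset.sum_sub_distrib]
  linarith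

end Dedekind

/-! ### The bridge to the Prelude `Place` API -/

attribute [local instance 10] Fermat.Agent.S37.FF.algOvF'

variable {K F F' : Type*} [Field K] [Field F] [Field F'] [Algebra K F] [Algebra K F']
  [Algebra F F'] [IsScalarTower K F F'] [FiniteDimensional F F'] [Algebra.IsSeparable F F']

omit [Algebra K F'] [IsScalarTower K F F'] in
/-- Every prime of the local model lies over the maximal ideal of `O_v`. -/
theorem liesOver_maximalIdeal (v : Place K F) (Q : HeightOneSpectrum (Bv (F' := F') v)) :
    Q.asIdeal.LiesOver (IsLocalRing.maximalIdeal (Ov v)) := by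
  have hQm : Q.asIdeal.IsMaximal := Q.isMaximal
  have hint : Algebra.IsIntegral (Ov v) (Bv (F' := F') v) := Algebra.IsIntegral.of_finite _ _
  have hmax : (Q.asIdeal.under (Ov v)).IsMaximal :=
    Ideal.isMaximal_comap_of_isIntegral_of_isMaximal Q.asIdeal
  exact ⟨(IsLocalRing.eq_maximalIdeal hmax).symm⟩

omit [Algebra K F'] [IsScalarTower K F F'] in
/-- The local model is semilocal. -/
theorem finite_heightOneSpectrum_Bv (v : Place K F) :
    Finite (HeightOneSpectrum (Bv (F' := F') v)) :=
  finite_heightOneSpectrum_of_liesOver _ (liesOver_maximalIdeal v)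

/-- **Norm formula at `v`, indexed by the primes of the local model.** -/
theorem ord_norm_eq_sum [CharZero F] (v : Place K F)
    [Fintype (HeightOneSpectrum (Bv (F' := F') v))] (f : F') (hf : f ≠ 0) :
    v.ord (Algebra.norm F f) = ∑ Q : HeightOneSpectrum (Bv (F' := F') v),
      (Q.asIdeal.inertiaDeg (Ov v) : ℤ) * (placeOfPrime (K := K) (F := F') Q).ord f := by
  have hP : ∀ Q : HeightOneSpectrum (Bv (F' := F') v),
      Q.asIdeal.LiesOver v.heightOneSpectrum.asIdeal := liesOver_maximalIdeal v
  rw [Place.ord, Place.adicValuation, log_valuation_norm v.heightOneSpectrum hP f hf,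
    ← Finset.sum_neg_distrib]
  refine Finset.sum_congr rfl fun Q _ => ?_
  rw [ord_placeOfPrime Q f hf]
  ring

/-! ### The inertia bridge -/

section Inertia

variable (w : Place K F')

/-- The prime of the local model (over `w.restrict F`) cut out by a place `w` of `F'`. -/
abbrev primeAt : HeightOneSpectrum (Bv (F' := F') (w.restrict F)) :=
  primeOfPlace w (algebraMap_mem_of_restrict_eq (w.restrict F) w rfl)

/-- The residue map `B_v / Q → κ(w)`. -/
def residueMapAt :
    (Bv (F' := F') (w.restrict F)) ⧸ (primeAt (F := F) w).asIdeal →+* w.ResidueField :=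
  Ideal.quotientMap (IsLocalRing.maximalIdeal w.toValuationSubring)
    (toPlaceRing w (algebraMap_mem_of_restrict_eq (w.restrict F) w rfl)) (le_of_eq rfl)

theorem residueMapAt_mk (b : Bv (F' := F') (w.restrict F)) :
    residueMapAt (F := F) w (Ideal.Quotient.mk _ b)
      = IsLocalRing.residue _
          (toPlaceRing w (algebraMap_mem_of_restrict_eq (w.restrict F) w rfl) b) :=
  rfl

theorem residueMapAt_injective : Function.Injective (residueMapAt (F := F) w) :=
  Ideal.quotientMap_injective' (le_of_eq rfl)

theorem residueMapAt_surjective : Function.Surjective (residueMapAt (F := F) w) := by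
  intro z
  obtain ⟨z, rfl⟩ := IsLocalRing.residue_surjective z
  set Q := primeAt (F := F) w with hQ
  have hQm : Q.asIdeal.IsMaximal := Q.isMaximal
  let _ : Field ((Bv (F' := F') (w.restrict F)) ⧸ Q.asIdeal) := Ideal.Quotient.field _
  have hw : placeOfPrime (K := K) (F := F') Q = w := placeOfPrime_primeOfPlace w _
  have hz : Q.valuation F' (z : F') ≤ 1 := by
    rw [← mem_placeOfPrime_iff (K := K), hw]
    exact z.2
  obtain ⟨n, d, hnd⟩ := Q.exists_primeCompl_mul_eq_of_integer (z : F') hz
  have hd : (Ideal.Quotient.mk Q.asIdeal (d : Bv (F' := F') (w.restrict F))) ≠ 0 := by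
    rw [Ne, Ideal.Quotient.eq_zero_iff_mem]
    exact d.2
  have hne : residueMapAt (F := F) w
      (Ideal.Quotient.mk Q.asIdeal (d : Bv (F' := F') (w.restrict F))) ≠ 0 :=
    (map_ne_zero_iff _ (residueMapAt_injective w)).mpr hd
  refine ⟨Ideal.Quotient.mk Q.asIdeal n
    / Ideal.Quotient.mk Q.asIdeal (d : Bv (F' := F') (w.restrict F)), ?_⟩
  rw [map_div₀, div_eq_iff hne, residueMapAt_mk, residueMapAt_mk, ← map_mul]
  congr 1
  exact (Subtype.ext hnd).symm

/-- The residue field of the prime of the local model is the residue field of the place. -/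
def residueEquivAt :
    ((Bv (F' := F') (w.restrict F)) ⧸ (primeAt (F := F) w).asIdeal) ≃+* w.ResidueField :=
  RingEquiv.ofBijective (residueMapAt (F := F) w)
    ⟨residueMapAt_injective w, residueMapAt_surjective w⟩

/-- **Inertia bridge**: the Mathlib inertia degree of the prime of the local model is the
Prelude inertia degree of the place. -/
theorem inertiaDeg_primeAt :
    (primeAt (F := F) w).asIdeal.inertiaDeg (Ov (w.restrict F)) = w.inertiaDeg F := by
  have := liesOver_maximalIdeal (w.restrict F) (primeAt (F := F) w)
  have hQm : (primeAt (F := F) w).asIdeal.IsMaximal := (primeAt (F := F) w).isMaximal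
  rw [Ideal.inertiaDeg_eq_of_isMaximal (IsLocalRing.maximalIdeal (Ov (w.restrict F))),
    Place.inertiaDeg]
  refine Algebra.finrank_eq_of_equiv_equiv (RingEquiv.refl _) (residueEquivAt (F := F) w) ?_
  ext a
  rfl

end Inertia

/-- Inertia bridge along the fibre bijection of `LocalBridge`. -/
theorem inertiaDeg_fiberEquiv (v : Place K F) (w : Place K F') (hw : w.restrict F = v) :
    (fiberEquiv v ⟨w, hw⟩).asIdeal.inertiaDeg (Ov v) = w.inertiaDeg F := by
  subst hw
  exact inertiaDeg_primeAt w

/-- Inertia bridge, indexed by the primes of the local model. -/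
theorem inertiaDeg_placeOfPrime (v : Place K F) (Q : HeightOneSpectrum (Bv (F' := F') v)) :
    Q.asIdeal.inertiaDeg (Ov v) = (placeOfPrime (K := K) (F := F') Q).inertiaDeg F := by
  have h := inertiaDeg_fiberEquiv v (placeOfPrime (K := K) (F := F') Q) (restrict_placeOfPrime v Q)
  have h2 : fiberEquiv v ⟨placeOfPrime (K := K) (F := F') Q, restrict_placeOfPrime v Q⟩ = Q :=
    (fiberEquiv v).apply_symm_apply Q
  rw [h2] at h
  exact h

/-! ### The Prelude predicate -/

/-- **The norm formula**: for a finite separable extension `F'/F` of fields over a field `K` of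
characteristic zero, the pushforward of the divisor of `f` is the divisor of `N_{F'/F} f`. -/
theorem pushforwardNormFormula [CharZero K] : Divisor.PushforwardNormFormula K F F' := by
  classical
  intro f hf D hD v
  have : CharZero F := charZero_of_injective_algebraMap (algebraMap K F).injective
  have := finite_heightOneSpectrum_Bv (F' := F') v
  let _ := Fintype.ofFinite (HeightOneSpectrum (Bv (F' := F') v))
  rw [Divisor.pushforward_apply, ord_norm_eq_sum v f hf]
  symm
  have key : ∀ Q : HeightOneSpectrum (Bv (F' := F') v),
      (Q.asIdeal.inertiaDeg (Ov v) : ℤ) * (placeOfPrime (K := K) (F := F') Q).ord f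
        = if (placeOfPrime (K := K) (F := F') Q).restrict F = v then
            D (placeOfPrime (K := K) (F := F') Q)
              * ((placeOfPrime (K := K) (F := F') Q).inertiaDeg F : ℤ) else 0 := by
    intro Q
    rw [if_pos (restrict_placeOfPrime v Q), hD, inertiaDeg_placeOfPrime v Q, mul_comm]
  refine Finset.sum_bij_ne_zero (fun Q _ _ => placeOfPrime (K := K) (F := F') Q) ?_ ?_ ?_ ?_
  · intro Q _ hQ
    rw [Finsupp.mem_support_iff, hD]
    exact right_ne_zero_of_mul hQ
  · intro Q₁ _ _ Q₂ _ _ h
    have : (fiberEquiv v).symm Q₁ = (fiberEquiv v).symm Q₂ := Subtype.ext h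
    exact (fiberEquiv v).symm.injective this
  · intro w _ hw
    have hwv : w.restrict F = v := by
      by_contra hne
      exact hw (if_neg hne)
    have hQw : placeOfPrime (K := K) (F := F') (fiberEquiv v ⟨w, hwv⟩) = w :=
      congrArg Subtype.val ((fiberEquiv v).symm_apply_apply ⟨w, hwv⟩)
    refine ⟨fiberEquiv v ⟨w, hwv⟩, Finset.mem_univ _, ?_, hQw⟩
    rw [key, hQw]
    exact hw
  · intro Q _ _
    exact key Q

/-- The `Along` form consumed by `HeckeInputsAlong`: the norm formula holds along every finite
`K`-algebra map of fields, in characteristic zero. -/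
theorem normFormulaAlong {K F F' : Type*} [Field K] [Field F] [Field F'] [Algebra K F]
    [Algebra K F'] [CharZero K] (φ : F →ₐ[K] F') (hfin : FiniteAlong K φ) :
    NormFormulaAlong K φ hfin := by
  let _ := algebraAlong φ
  have := isScalarTower_along φ
  have : Module.Finite F F' := hfin
  have : CharZero F := charZero_of_injective_algebraMap (algebraMap K F).injective
  have : Algebra.IsSeparable F F' := Algebra.IsSeparable.of_integral F F'
  exact pushforwardNormFormula

end Fermat.Agent.S37.FF.NormFormula
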